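import Fermat.Agent.S14.Artin.Frob

/-!
# S14 / Artin map block: explicit Frobenius on roots of unity (cyclotomic reciprocity)

`F ⊆ K` number fields, `K/F` abelian.  For a nonzero prime `q` of `𝓞 F` and a root of unity
`ζ` of order prime to `q`, the Frobenius `am_frob F K q` sends `ζ` to `ζ ^ N(q)`
(`am_frob_smul_of_pow_eq_one`, `am_frob_apply_of_pow_eq_one`), with the product version for
multisets of primes (`am_prod_frob_smul_of_pow_eq_one`).

Also: in a totally complex number field the norm of a nonzero integer is positive, and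
`δ ≡ 1 mod m` implies `N(δ) ≡ 1 mod m`, hence `absNorm (span {δ}) ≡ 1 [MOD m]`
(`am_absNorm_span_singleton_modEq_one`): principal ideals generated by `δ ≡ 1 mod m` have
trivial Artin symbol in a sub-extension of `F(ζ_m)/F`.
-/

set_option autoImplicit false

open NumberField

namespace Fermat.Agent.S14

open scoped Pointwise IsMulCommutative

set_option linter.style.haveILetI false
set_option linter.unusedSectionVars false

section Frob

variable {F K : Type*} [Field F] [NumberField F] [Field K] [NumberField K] [Algebra F K]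
  [IsGalois F K] [IsMulCommutative Gal(K/F)]

/-- `Nat.card (𝓞 F ⧸ q) = absNorm q`. -/
theorem am_natCard_quotient_eq_absNorm (q : Ideal (𝓞 F)) :
    Nat.card (𝓞 F ⧸ q) = Ideal.absNorm q := by
  rw [Ideal.absNorm_apply, Submodule.cardQuot_apply]

/-- `am_frob_spec'` with `absNorm`. -/
theorem am_frob_spec_absNorm (q : Ideal (𝓞 F)) [q.IsPrime] (hq0 : q ≠ ⊥)
    (Q : Ideal (𝓞 K)) [Q.IsPrime] [Q.LiesOver q] (x : 𝓞 K) :
    (am_frob F K q) • x - x ^ Ideal.absNorm q ∈ Q := by
  rw [← am_natCard_quotient_eq_absNorm]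
  exact am_frob_spec' q hq0 Q x

/-- The Frobenius at `q` raises roots of unity of order prime to `q` to the power `N(q)`
(integral version). -/
theorem am_frob_smul_of_pow_eq_one {q : Ideal (𝓞 F)} [hq : q.IsPrime] (hq0 : q ≠ ⊥)
    {ζ : 𝓞 K} {m : ℕ} (hζ : ζ ^ m = 1) (hm : (m : 𝓞 F) ∉ q) :
    am_frob F K q • ζ = ζ ^ Ideal.absNorm q := by
  obtain ⟨Q, hQ1, hQ2, -⟩ := am_exists_prime_over K q hq0
  have hspec := am_frob_spec q hq0 Q
  have hmQ : (m : 𝓞 K) ∉ Q := by
    intro h
    apply hm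
    have h1 : (algebraMap (𝓞 F) (𝓞 K)) (m : 𝓞 F) ∈ Q := by simpa using h
    have h2 : (m : 𝓞 F) ∈ Q.under (𝓞 F) := h1
    rwa [← hQ2.over] at h2
  have := AlgHom.IsArithFrobAt.apply_of_pow_eq_one hspec hζ hmQ
  rw [← hQ2.over, am_natCard_quotient_eq_absNorm] at this
  exact this

/-- The Frobenius at `q` raises roots of unity of order prime to `q` to the power `N(q)`
(field version). -/
theorem am_frob_apply_of_pow_eq_one {q : Ideal (𝓞 F)} [hq : q.IsPrime] (hq0 : q ≠ ⊥)
    {ζ : K} {m : ℕ} (hm0 : m ≠ 0) (hζ : ζ ^ m = 1) (hm : (m : 𝓞 F) ∉ q) :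
    am_frob F K q ζ = ζ ^ Ideal.absNorm q := by
  have hint : IsIntegral ℤ ζ := by
    refine ⟨Polynomial.X ^ m - 1, Polynomial.monic_X_pow_sub_C 1 hm0, ?_⟩
    simp [hζ]
  obtain ⟨z, hz⟩ : ∃ z : 𝓞 K, (z : K) = ζ := ⟨⟨ζ, hint⟩, rfl⟩
  have hz1 : z ^ m = 1 := by
    apply RingOfIntegers.ext
    change algebraMap (𝓞 K) K (z ^ m) = algebraMap (𝓞 K) K 1
    rw [map_pow, map_one]
    change (z : K) ^ m = 1
    rw [hz, hζ]
  have := am_frob_smul_of_pow_eq_one (K := K) hq0 hz1 hm
  have h2 := congrArg (fun x : 𝓞 K => algebraMap (𝓞 K) K x) this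
  simp only [map_pow] at h2
  change _ = (z : K) ^ _ at h2
  rw [hz] at h2
  rw [← h2, ← hz]
  rfl

/-- Iterated version: `(Frob_q)^n ζ = ζ ^ (N(q)^n)`. -/
theorem am_frob_pow_smul_of_pow_eq_one {q : Ideal (𝓞 F)} [hq : q.IsPrime] (hq0 : q ≠ ⊥)
    {ζ : 𝓞 K} {m : ℕ} (hζ : ζ ^ m = 1) (hm : (m : 𝓞 F) ∉ q) (n : ℕ) :
    (am_frob F K q ^ n) • ζ = ζ ^ (Ideal.absNorm q ^ n) := by
  induction n with
  | zero => simp
  | succ n ih =>
    rw [pow_succ, mul_smul, am_frob_smul_of_pow_eq_one hq0 hζ hm, smul_pow', ih, ← pow_mul,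
      pow_succ]

/-- Product version: a product of Frobenius elements at primes prime to `m` raises an
`m`-th root of unity to the product of the norms. -/
theorem am_prod_frob_smul_of_pow_eq_one {ζ : 𝓞 K} {m : ℕ} (hζ : ζ ^ m = 1)
    (s : Multiset (Ideal (𝓞 F)))
    (hs : ∀ q ∈ s, q.IsPrime ∧ q ≠ ⊥ ∧ (m : 𝓞 F) ∉ q) :
    (s.map (am_frob F K)).prod • ζ = ζ ^ (s.map Ideal.absNorm).prod := by
  induction s using Multiset.induction_on with
  | empty => simp
  | cons q s ih =>
    have hq := hs q (Multiset.mem_cons_self q s)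
    haveI := hq.1
    have hs' : ∀ q' ∈ s, q'.IsPrime ∧ q' ≠ ⊥ ∧ (m : 𝓞 F) ∉ q' :=
      fun q' hq' => hs q' (Multiset.mem_cons_of_mem hq')
    simp only [Multiset.map_cons, Multiset.prod_cons]
    rw [mul_smul, ih hs', smul_pow', am_frob_smul_of_pow_eq_one hq.2.1 hζ hq.2.2, ← pow_mul]

end Frob

section Norm

/-- Pairing lemma: if a fixed-point-free involution `c` of a finite index set satisfies
`f (c i) = conj (f i)`, then `∏ i ∈ s, f i` is a nonnegative real for every `c`-stable `s`. -/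
theorem am_prod_nonneg_of_involution {ι : Type*} [DecidableEq ι] (c : ι → ι)
    (hc : ∀ i, c (c i) = i) (hfix : ∀ i, c i ≠ i) (f : ι → ℂ)
    (hf : ∀ i, f (c i) = (starRingEnd ℂ) (f i)) (s : Finset ι) (hs : ∀ i ∈ s, c i ∈ s) :
    ∃ r : ℝ, 0 ≤ r ∧ ∏ i ∈ s, f i = (r : ℂ) := by
  induction s using Finset.strongInduction with
  | H s ih =>
    by_cases hne : s = ∅
    · subst hne
      exact ⟨1, zero_le_one, by simp⟩
    · obtain ⟨i, hi⟩ := Finset.nonempty_iff_ne_empty.mpr hne
      have hci : c i ∈ s := hs i hi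
      set t := (s.erase i).erase (c i) with ht
      have hts : t ⊂ s := by
        refine (Finset.ssubset_iff_subset_ne).mpr ⟨?_, ?_⟩
        · exact (Finset.erase_subset _ _).trans (Finset.erase_subset _ _)
        · intro h
          have : i ∈ t := h ▸ hi
          simp [ht] at this
      have htc : ∀ j ∈ t, c j ∈ t := by
        intro j hj
        simp only [ht, Finset.mem_erase] at hj ⊢
        obtain ⟨h1, h2, h3⟩ := hj
        refine ⟨?_, ?_, hs j h3⟩
        · intro h; apply h2; rw [← hc j, h, hc]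
        · intro h; apply h1; rw [← hc j, h]
      obtain ⟨r, hr0, hr⟩ := ih t hts htc
      refine ⟨Complex.normSq (f i) * r, mul_nonneg (Complex.normSq_nonneg _) hr0, ?_⟩
      have h1 : c i ∈ s.erase i := Finset.mem_erase.mpr ⟨hfix i, hci⟩
      rw [← Finset.mul_prod_erase s f hi, ← Finset.mul_prod_erase (s.erase i) f h1, ← ht, hr,
        hf i, ← mul_assoc, Complex.mul_conj]
      push_cast
      ring

variable {F : Type*} [Field F] [NumberField F]

/-- In a totally complex number field, norms to `ℚ` are nonnegative. -/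
theorem am_norm_nonneg_of_isTotallyComplex [IsTotallyComplex F] (x : F) :
    0 ≤ Algebra.norm ℚ x := by
  classical
  have h1 := Algebra.norm_eq_prod_embeddings ℚ ℂ x
  rw [← Fintype.prod_equiv (RingHom.equivRatAlgHom F ℂ) (fun φ => φ x) (fun σ => σ x)
    (fun _ => rfl)] at h1
  obtain ⟨r, hr0, hr⟩ := am_prod_nonneg_of_involution
    (ι := F →+* ℂ) ComplexEmbedding.conjugate
    (fun φ => by ext x; simp)
    (fun φ h => IsTotallyComplex.complexEmbedding_not_isReal φ (ComplexEmbedding.isReal_iff.mpr h))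
    (fun φ => φ x) (fun φ => ComplexEmbedding.conjugate_coe_eq φ x) Finset.univ
    (fun _ _ => Finset.mem_univ _)
  rw [hr] at h1
  have h2 : ((Algebra.norm ℚ x : ℚ) : ℝ) = r := by
    have : ((Algebra.norm ℚ x : ℚ) : ℂ) = (r : ℂ) := by simpa using h1
    exact_mod_cast this
  have : (0 : ℝ) ≤ ((Algebra.norm ℚ x : ℚ) : ℝ) := h2 ▸ hr0
  exact_mod_cast this

/-- In a totally complex number field, integral norms are nonnegative. -/
theorem am_norm_int_nonneg_of_isTotallyComplex [IsTotallyComplex F] (x : 𝓞 F) :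
    0 ≤ Algebra.norm ℤ x := by
  have h := am_norm_nonneg_of_isTotallyComplex (x : F)
  rw [← Algebra.coe_norm_int] at h
  exact_mod_cast h

/-- If `δ ≡ 1 mod m` then `N(δ) ≡ 1 mod m`. -/
theorem am_norm_int_modEq_one {m : ℕ} {δ : 𝓞 F} (hδ : δ - 1 ∈ Ideal.span {(m : 𝓞 F)}) :
    Algebra.norm ℤ δ ≡ 1 [ZMOD (m : ℤ)] := by
  classical
  obtain ⟨y, hy⟩ := Ideal.mem_span_singleton'.mp hδ
  have hδ' : δ = 1 + (m : ℤ) • y := by
    rw [zsmul_eq_mul, mul_comm]
    push_cast
    rw [hy]; ring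
  let b := RingOfIntegers.basis F
  rw [← ZMod.intCast_eq_intCast_iff, Algebra.norm_eq_matrix_det b, hδ', map_add, map_one,
    map_zsmul, Int.cast_one]
  change (Int.castRingHom (ZMod m)) (Matrix.det _) = 1
  rw [RingHom.map_det, map_add, map_one, map_zsmul]
  have : ((m : ℤ) • (Int.castRingHom (ZMod m)).mapMatrix ((Algebra.leftMulMatrix b) y)) = 0 := by
    ext i j
    simp
  rw [this, add_zero, Matrix.det_one]

/-- Cyclotomic reciprocity input: in a totally complex field, `δ ≡ 1 mod m` implies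
`absNorm (span {δ}) ≡ 1 [MOD m]`. -/
theorem am_absNorm_span_singleton_modEq_one [IsTotallyComplex F] {m : ℕ} {δ : 𝓞 F}
    (hδ : δ - 1 ∈ Ideal.span {(m : 𝓞 F)}) :
    Ideal.absNorm (Ideal.span {δ}) ≡ 1 [MOD m] := by
  rw [Ideal.absNorm_span_singleton]
  have h1 := am_norm_int_modEq_one hδ
  have h2 := am_norm_int_nonneg_of_isTotallyComplex δ
  rw [← Int.natCast_modEq_iff, Int.natAbs_of_nonneg h2]
  exact_mod_cast h1

end Norm

end Fermat.Agent.S14
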