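import Fermat.Agent.S14.Artin.Frob

/-!
# S14 / Artin map block, part 2: the Artin map on ideals

`F ⊆ K` number fields, `K/F` Galois with commutative Galois group.  `am_artinFun F K I` is the
product over the prime factorisation of `I` of the Frobenius elements `am_frob F K q`;
`am_artin F K` is the same as a monoid homomorphism on the nonzero ideals.
-/

open NumberField

namespace Fermat.Agent.S14

open scoped Pointwise IsMulCommutative nonZeroDivisors

set_option linter.style.haveILetI false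
set_option linter.unusedSectionVars false
set_option autoImplicit false

section Generic

variable {F K : Type*} [Field F] [NumberField F] [Field K] [NumberField K] [Algebra F K]

theorem am_absNorm_eq_natCard (q : Ideal (𝓞 F)) : Ideal.absNorm q = Nat.card (𝓞 F ⧸ q) := by
  rw [Ideal.absNorm_apply, Submodule.cardQuot_apply]

theorem am_under_ne_bot (Q : Ideal (𝓞 K)) (hQ0 : Q ≠ ⊥) : Q.under (𝓞 F) ≠ ⊥ := by
  intro h
  exact hQ0 (Ideal.eq_bot_of_comap_eq_bot h)

theorem am_relNorm_prime (Q : Ideal (𝓞 K)) [Q.IsPrime] (hQ0 : Q ≠ ⊥) :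
    Ideal.relNorm (𝓞 F) Q = (Q.under (𝓞 F)) ^ Q.inertiaDeg (𝓞 F) := by
  have hQmax : Q.IsMaximal := am_isMaximal hQ0
  have : (Q.under (𝓞 F)).IsMaximal := Ideal.IsMaximal.under (𝓞 F) Q
  exact Ideal.relNorm_eq_pow_of_isMaximal Q (Q.under (𝓞 F))

end Generic

section Inertia

variable {F K : Type*} [Field F] [NumberField F] [Field K] [NumberField K] [Algebra F K]
  [IsGalois F K]

/-- Two elements of the Galois group which are congruent modulo a prime `Q` with trivial inertia,
one of them stabilising `Q`, are equal. -/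
theorem am_eq_of_forall_sub_mem {σ τ : Gal(K/F)} (Q : Ideal (𝓞 K))
    (hQ : Q.inertia Gal(K/F) = ⊥) (hτ : τ • Q = Q) (h : ∀ x : 𝓞 K, σ • x - τ • x ∈ Q) :
    σ = τ := by
  have hmem : τ⁻¹ * σ ∈ Q.inertia Gal(K/F) := by
    rw [AddSubgroup.mem_inertia]
    intro x
    have h1 : τ⁻¹ • (σ • x - τ • x) ∈ τ⁻¹ • Q := Ideal.smul_mem_pointwise_smul _ _ _ (h x)
    have h2 : τ⁻¹ • Q = Q := by rw [inv_smul_eq_iff, hτ]
    rw [h2, smul_sub, inv_smul_smul, ← mul_smul] at h1
    exact h1
  rw [hQ, Subgroup.mem_bot, inv_mul_eq_one] at hmem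
  exact hmem.symm

/-- The inertia group has as many elements as the ramification index. -/
theorem am_card_inertia (q : Ideal (𝓞 F)) [q.IsPrime] (hq0 : q ≠ ⊥)
    (Q : Ideal (𝓞 K)) [Q.IsPrime] [Q.LiesOver q] :
    Nat.card (Q.inertia Gal(K/F)) = Q.ramificationIdx (𝓞 F) := by
  have hqmax : q.IsMaximal := am_isMaximal hq0
  have : Finite (𝓞 F ⧸ q) := am_finite_quotient F hq0
  have : Finite q.ResidueField := inferInstance
  rw [Ideal.card_inertia_eq_ramificationIdxIn q Q,
    Ideal.ramificationIdxIn_eq_ramificationIdx q Q Gal(K/F)]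

/-- `q` is unramified in `K` iff all ramification indices over `q` are one. -/
theorem am_unram_iff_ramificationIdx (q : Ideal (𝓞 F)) [q.IsPrime] (hq0 : q ≠ ⊥) :
    am_Unram F K q ↔
      ∀ Q : Ideal (𝓞 K), Q.IsPrime → Q.LiesOver q → Q.ramificationIdx (𝓞 F) = 1 := by
  constructor
  · intro h Q hQ hQq
    rw [← am_card_inertia q hq0 Q, h Q hQ hQq]
    simp
  · intro h Q hQ hQq
    have := h Q hQ hQq
    rw [← am_card_inertia q hq0 Q] at this
    exact (Subgroup.card_eq_one).mp this


end Inertia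

section Artin

variable (F K : Type*) [Field F] [NumberField F] [Field K] [NumberField K] [Algebra F K]
  [IsGalois F K] [IsMulCommutative Gal(K/F)]

/-- The Artin map on (nonzero) ideals of `𝓞 F`, as a bare function; junk value `1` at `⊥`. -/
noncomputable def am_artinFun (I : Ideal (𝓞 F)) : Gal(K/F) :=
  ((UniqueFactorizationMonoid.normalizedFactors I).map (am_frob F K)).prod

variable {F K}

theorem am_artinFun_bot : am_artinFun F K (⊥ : Ideal (𝓞 F)) = 1 := by
  rw [am_artinFun, ← Ideal.zero_eq_bot, UniqueFactorizationMonoid.normalizedFactors_zero]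
  simp

theorem am_artinFun_one : am_artinFun F K (1 : Ideal (𝓞 F)) = 1 := by
  rw [am_artinFun, UniqueFactorizationMonoid.normalizedFactors_one]
  simp

theorem am_artinFun_top : am_artinFun F K (⊤ : Ideal (𝓞 F)) = 1 := by
  rw [← Ideal.one_eq_top]; exact am_artinFun_one

theorem am_artinFun_mul {I J : Ideal (𝓞 F)} (hI : I ≠ ⊥) (hJ : J ≠ ⊥) :
    am_artinFun F K (I * J) = am_artinFun F K I * am_artinFun F K J := by
  unfold am_artinFun
  rw [UniqueFactorizationMonoid.normalizedFactors_mul hI hJ, Multiset.map_add, Multiset.prod_add]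

theorem am_artinFun_prime (q : Ideal (𝓞 F)) [hq : q.IsPrime] (hq0 : q ≠ ⊥) :
    am_artinFun F K q = am_frob F K q := by
  unfold am_artinFun
  have hirr : Irreducible q := (Ideal.prime_of_isPrime hq0 hq).irreducible
  rw [UniqueFactorizationMonoid.normalizedFactors_irreducible hirr, normalize_eq]
  simp

theorem am_artinFun_pow (I : Ideal (𝓞 F)) (n : ℕ) :
    am_artinFun F K (I ^ n) = am_artinFun F K I ^ n := by
  unfold am_artinFun
  rw [UniqueFactorizationMonoid.normalizedFactors_pow, Multiset.map_nsmul, Multiset.prod_nsmul]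

variable (F K) in
/-- The Artin map as a monoid homomorphism on the nonzero ideals of `𝓞 F`. -/
noncomputable def am_artin : (Ideal (𝓞 F))⁰ →* Gal(K/F) where
  toFun I := am_artinFun F K I.1
  map_one' := am_artinFun_one
  map_mul' I J := am_artinFun_mul (nonZeroDivisors.ne_zero I.2) (nonZeroDivisors.ne_zero J.2)

@[simp] theorem am_artin_apply (I : (Ideal (𝓞 F))⁰) : am_artin F K I = am_artinFun F K I.1 := rfl


theorem am_artinFun_relNorm_prime (Q : Ideal (𝓞 K)) [Q.IsPrime] (hQ0 : Q ≠ ⊥)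
    (hunr : am_Unram F K (Q.under (𝓞 F))) :
    am_artinFun F K (Ideal.relNorm (𝓞 F) Q) = 1 := by
  have hq0 : Q.under (𝓞 F) ≠ ⊥ := am_under_ne_bot Q hQ0
  rw [am_relNorm_prime Q hQ0, am_artinFun_pow, am_artinFun_prime _ hq0,
    am_frob_pow_eq_one_iff hq0 hunr Q]

/-- The Artin map kills norms of ideals all of whose prime factors lie over unramified primes. -/
theorem am_artinFun_relNorm' (A : Ideal (𝓞 K))
    (hunr : ∀ Q : Ideal (𝓞 K), Q.IsPrime → Q ≠ ⊥ → A ≤ Q → am_Unram F K (Q.under (𝓞 F))) :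
    am_artinFun F K (Ideal.relNorm (𝓞 F) A) = 1 := by
  induction A using UniqueFactorizationMonoid.induction_on_prime with
  | h₁ => rw [Ideal.zero_eq_bot, Ideal.relNorm_bot]; exact am_artinFun_bot
  | h₂ x hx =>
    rw [Ideal.isUnit_iff] at hx
    rw [hx, ← Ideal.one_eq_top, map_one]
    exact am_artinFun_one
  | h₃ a P ha hP ih =>
    have hP0 : P ≠ ⊥ := hP.ne_zero
    have hPprime : P.IsPrime := Ideal.isPrime_of_prime hP
    rw [map_mul, am_artinFun_mul]
    · rw [am_artinFun_relNorm_prime P hP0 (hunr P hPprime hP0 (Ideal.mul_le_left (I := P) (J := a))), one_mul]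
      exact ih fun Q hQ hQ0 haQ => hunr Q hQ hQ0 ((Ideal.mul_le_right (I := P) (J := a)).trans haQ)
    · rwa [Ne, Ideal.relNorm_eq_bot_iff]
    · rwa [Ne, Ideal.relNorm_eq_bot_iff]

theorem am_artinFun_relNorm (hunr : ∀ q : Ideal (𝓞 F), q.IsPrime → q ≠ ⊥ → am_Unram F K q)
    (A : Ideal (𝓞 K)) : am_artinFun F K (Ideal.relNorm (𝓞 F) A) = 1 :=
  am_artinFun_relNorm' A fun Q _ hQ0 _ =>
    hunr _ (Ideal.IsPrime.under (𝓞 F) Q) (am_under_ne_bot Q hQ0)

end Artin

end Fermat.Agent.S14
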