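import Mathlib

/-!
# S14 / Artin map block, part 1: Frobenius elements of abelian extensions of number fields

`F ⊆ K` number fields, `K/F` Galois with commutative Galois group.  For a nonzero prime `q`
of `𝓞 F` we define `am_frob F K q : Gal(K/F)`, a Frobenius element at *every* prime of `𝓞 K`
above `q` (`am_frob_spec`), unique when `q` is unramified (`am_frob_unique`), and of order the
inertia degree (`am_frob_pow_eq_one_iff`, `am_frob_eq_one_iff`).
-/

open NumberField Polynomial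

namespace Fermat.Agent.S14

open scoped Pointwise

set_option linter.style.haveILetI false
set_option linter.unusedSectionVars false

section Generic

/-- If all elements of a finite field satisfy `x ^ m = x` with `1 < m`, the field has at most
`m` elements. -/
theorem am_card_le_of_forall_pow_eq {L : Type*} [Field L] [Finite L] {m : ℕ} (hm : 1 < m)
    (h : ∀ x : L, x ^ m = x) : Nat.card L ≤ m := by
  classical
  have : Fintype L := Fintype.ofFinite L
  have hP : (X ^ m - X : L[X]) ≠ 0 := FiniteField.X_pow_card_sub_X_ne_zero L hm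
  have hdeg : (X ^ m - X : L[X]).natDegree = m := FiniteField.X_pow_card_sub_X_natDegree_eq L hm
  have hroots : (Finset.univ : Finset L) ⊆ (X ^ m - X : L[X]).roots.toFinset := by
    intro x _
    rw [Multiset.mem_toFinset, mem_roots hP]
    simp [h x]
  calc Nat.card L = (Finset.univ : Finset L).card := by
        rw [Nat.card_eq_fintype_card, Finset.card_univ]
    _ ≤ (X ^ m - X : L[X]).roots.toFinset.card := Finset.card_le_card hroots
    _ ≤ Multiset.card (X ^ m - X : L[X]).roots := Multiset.toFinset_card_le _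
    _ ≤ (X ^ m - X : L[X]).natDegree := card_roots' _
    _ = m := hdeg

/-- In a finite field `L` of cardinality `N ^ f` (`1 < N`), `∀ x, x ^ (N ^ n) = x` iff `f ∣ n`. -/
theorem am_forall_pow_eq_iff_dvd {L : Type*} [Field L] [Finite L] {N f : ℕ} (hN : 1 < N)
    (hf : 0 < f) (hcard : Nat.card L = N ^ f) (n : ℕ) :
    (∀ x : L, x ^ (N ^ n) = x) ↔ f ∣ n := by
  have hpow : ∀ x : L, x ^ (N ^ f) = x := by
    intro x
    have : Fintype L := Fintype.ofFinite L
    rw [← hcard, Nat.card_eq_fintype_card]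
    exact FiniteField.pow_card x
  have hmul : ∀ a : ℕ, ∀ x : L, x ^ (N ^ (f * a)) = x := by
    intro a
    induction a with
    | zero => simp
    | succ a ih =>
      intro x
      rw [Nat.mul_succ, pow_add, pow_mul, ih, hpow]
  constructor
  · intro h
    by_contra hdvd
    have hr : 0 < n % f := Nat.pos_of_ne_zero (fun h0 => hdvd (Nat.dvd_of_mod_eq_zero h0))
    have hr2 : n % f < f := Nat.mod_lt _ hf
    have key : ∀ x : L, x ^ (N ^ (n % f)) = x := by
      intro x
      have h1 := h x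
      rw [← Nat.div_add_mod n f, pow_add, pow_mul, hmul] at h1
      exact h1
    have h1 : 1 < N ^ (n % f) := Nat.one_lt_pow hr.ne' hN
    have h2 := am_card_le_of_forall_pow_eq h1 key
    rw [hcard] at h2
    have h3 : N ^ (n % f) < N ^ f := Nat.pow_lt_pow_right hN hr2
    omega
  · rintro ⟨a, rfl⟩
    exact hmul a

variable {F K : Type*} [Field F] [NumberField F] [Field K] [NumberField K] [Algebra F K]

/-- A nonzero ideal of the ring of integers of a number field has finite residue ring. -/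
theorem am_finite_quotient (K : Type*) [Field K] [NumberField K] {Q : Ideal (𝓞 K)}
    (hQ : Q ≠ ⊥) : Finite (𝓞 K ⧸ Q) :=
  Ideal.finiteQuotientOfFreeOfNeBot Q hQ

/-- A nonzero prime of the ring of integers of a number field is maximal. -/
theorem am_isMaximal {K : Type*} [Field K] [NumberField K] {Q : Ideal (𝓞 K)} [hQ : Q.IsPrime]
    (h0 : Q ≠ ⊥) : Q.IsMaximal :=
  hQ.isMaximal h0

/-- A prime of `𝓞 K` lying over a nonzero prime of `𝓞 F` is nonzero. -/
theorem am_ne_bot_of_liesOver {q : Ideal (𝓞 F)} (hq : q ≠ ⊥) (Q : Ideal (𝓞 K))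
    [hQ : Q.LiesOver q] : Q ≠ ⊥ := by
  rintro rfl
  apply hq
  have := hQ.over
  rw [this, Ideal.under_bot]

/-- Existence of a (nonzero) prime above a nonzero prime. -/
theorem am_exists_prime_over (K : Type*) [Field K] [NumberField K] [Algebra F K]
    (q : Ideal (𝓞 F)) [hq : q.IsPrime] (hq0 : q ≠ ⊥) :
    ∃ Q : Ideal (𝓞 K), Q.IsPrime ∧ Q.LiesOver q ∧ Q ≠ ⊥ := by
  obtain ⟨⟨Q, hQ1, hQ2⟩⟩ := q.nonempty_primesOver (S := 𝓞 K)
  exact ⟨Q, hQ1, hQ2, am_ne_bot_of_liesOver hq0 Q⟩

/-- Cardinality of the residue field upstairs. -/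
theorem am_natCard_quotient (q : Ideal (𝓞 F)) [q.IsPrime] (hq0 : q ≠ ⊥)
    (Q : Ideal (𝓞 K)) [Q.IsPrime] [Q.LiesOver q] :
    Nat.card (𝓞 K ⧸ Q) = Nat.card (𝓞 F ⧸ q) ^ Q.inertiaDeg (𝓞 F) := by
  have hQ0 : Q ≠ ⊥ := am_ne_bot_of_liesOver hq0 Q
  haveI := am_isMaximal hq0
  haveI := am_isMaximal hQ0
  haveI : Finite (𝓞 F ⧸ q) := am_finite_quotient F hq0
  haveI : Finite (𝓞 K ⧸ Q) := am_finite_quotient K hQ0
  letI : Field (𝓞 F ⧸ q) := Ideal.Quotient.field q
  rw [Ideal.inertiaDeg_eq_of_isMaximal q Q]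
  exact Module.natCard_eq_pow_finrank

/-- The residue field of a nonzero prime has more than one element. -/
theorem am_one_lt_natCard_quotient {q : Ideal (𝓞 F)} [hq : q.IsPrime] (hq0 : q ≠ ⊥) :
    1 < Nat.card (𝓞 F ⧸ q) := by
  haveI : Finite (𝓞 F ⧸ q) := am_finite_quotient F hq0
  haveI : Nontrivial (𝓞 F ⧸ q) := Ideal.Quotient.nontrivial_iff.mpr hq.ne_top
  exact Finite.one_lt_card

end Generic

section Galois

variable (F K : Type*) [Field F] [NumberField F] [Field K] [NumberField K] [Algebra F K]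
  [IsGalois F K]

/-- The Frobenius element of a nonzero prime `q` of `𝓞 F` in the Galois extension `K/F`
(any choice among the conjugates; it is a genuine Frobenius at every prime above `q` when
the Galois group is commutative).  Junk value `1` when `q` is not a nonzero prime. -/
noncomputable def am_frob (q : Ideal (𝓞 F)) : Gal(K/F) := by
  classical
  exact
    if h : ∃ Q : Ideal (𝓞 K), Q.IsPrime ∧ Q.LiesOver q ∧ Q ≠ ⊥ then
      haveI : h.choose.IsPrime := h.choose_spec.1
      haveI : Finite (𝓞 K ⧸ h.choose) := am_finite_quotient K h.choose_spec.2.2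
      arithFrobAt (𝓞 F) Gal(K/F) h.choose
    else 1

/-- `q` is unramified in `K`: all inertia groups above `q` are trivial. -/
def am_Unram (q : Ideal (𝓞 F)) : Prop :=
  ∀ Q : Ideal (𝓞 K), Q.IsPrime → Q.LiesOver q → Q.inertia Gal(K/F) = ⊥

variable {F K}

/-- Iterates of a Frobenius element. -/
theorem am_isArithFrobAt_pow {Q : Ideal (𝓞 K)} [Q.IsPrime] {σ : Gal(K/F)}
    (hσ : IsArithFrobAt (𝓞 F) σ Q) (n : ℕ) (x : 𝓞 K) :
    (σ ^ n) • x - x ^ (Nat.card (𝓞 F ⧸ Q.under (𝓞 F)) ^ n) ∈ Q := by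
  induction n generalizing x with
  | zero => simp
  | succ n ih =>
    rw [pow_succ', mul_smul, pow_succ, pow_mul]
    have h1 : σ • ((σ ^ n) • x) - σ • (x ^ (Nat.card (𝓞 F ⧸ Q.under (𝓞 F)) ^ n)) ∈ Q := by
      rw [← smul_sub]
      have := hσ.le_comap (ih x)
      simpa using this
    have h2 := hσ (x ^ (Nat.card (𝓞 F ⧸ Q.under (𝓞 F)) ^ n))
    have h3 := add_mem h1 h2
    simpa using h3

/-- Uniqueness of Frobenius elements at an unramified prime. -/
theorem am_isArithFrobAt_unique {q : Ideal (𝓞 F)} (hu : am_Unram F K q)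
    (Q : Ideal (𝓞 K)) [Q.IsPrime] [Q.LiesOver q] {σ τ : Gal(K/F)}
    (hσ : IsArithFrobAt (𝓞 F) σ Q) (hτ : IsArithFrobAt (𝓞 F) τ Q) : σ = τ := by
  have h := hσ.mul_inv_mem_inertia hτ
  rw [hu Q inferInstance inferInstance, Subgroup.mem_bot] at h
  exact mul_inv_eq_one.mp h

variable [IsMulCommutative Gal(K/F)]

/-- `am_frob F K q` is a Frobenius element at every prime of `𝓞 K` above `q`. -/
theorem am_frob_spec (q : Ideal (𝓞 F)) [hq : q.IsPrime] (hq0 : q ≠ ⊥)
    (Q : Ideal (𝓞 K)) [Q.IsPrime] [Q.LiesOver q] :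
    IsArithFrobAt (𝓞 F) (am_frob F K q) Q := by
  classical
  have h := am_exists_prime_over K q hq0
  unfold am_frob
  rw [dif_pos h]
  haveI : h.choose.IsPrime := h.choose_spec.1
  haveI : h.choose.LiesOver q := h.choose_spec.2.1
  haveI : Finite (𝓞 K ⧸ h.choose) := am_finite_quotient K h.choose_spec.2.2
  have h1 : IsArithFrobAt (𝓞 F) (arithFrobAt (𝓞 F) Gal(K/F) h.choose) h.choose :=
    IsArithFrobAt.arithFrobAt (𝓞 F) Gal(K/F) h.choose
  obtain ⟨τ, hτ⟩ := Algebra.IsInvariant.exists_smul_of_under_eq (𝓞 F) (𝓞 K) Gal(K/F) h.choose Q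
    ((Ideal.over_def h.choose q).symm.trans (Ideal.over_def Q q))
  have h2 := h1.conj τ
  rw [← hτ] at h2
  convert h2 using 1
  rw [mul_comm' τ, mul_assoc, mul_inv_cancel, mul_one]

/-- Concrete form of `am_frob_spec`. -/
theorem am_frob_spec' (q : Ideal (𝓞 F)) [hq : q.IsPrime] (hq0 : q ≠ ⊥)
    (Q : Ideal (𝓞 K)) [Q.IsPrime] [hQ : Q.LiesOver q] (x : 𝓞 K) :
    (am_frob F K q) • x - x ^ Nat.card (𝓞 F ⧸ q) ∈ Q := by
  have h := am_frob_spec q hq0 Q x
  rw [← hQ.over] at h
  exact h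

/-- Uniqueness: any Frobenius at some prime above an unramified `q` is `am_frob F K q`. -/
theorem am_frob_unique {q : Ideal (𝓞 F)} [hq : q.IsPrime] (hq0 : q ≠ ⊥) (hu : am_Unram F K q)
    (Q : Ideal (𝓞 K)) [Q.IsPrime] [Q.LiesOver q] {σ : Gal(K/F)}
    (hσ : IsArithFrobAt (𝓞 F) σ Q) : σ = am_frob F K q :=
  am_isArithFrobAt_unique hu Q hσ (am_frob_spec q hq0 Q)

/-- `am_frob ^ n = 1` iff the inertia degree divides `n` (unramified case). -/
theorem am_frob_pow_eq_one_iff {q : Ideal (𝓞 F)} [hq : q.IsPrime] (hq0 : q ≠ ⊥)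
    (hu : am_Unram F K q) (Q : Ideal (𝓞 K)) [Q.IsPrime] [hQ : Q.LiesOver q] (n : ℕ) :
    am_frob F K q ^ n = 1 ↔ Q.inertiaDeg (𝓞 F) ∣ n := by
  have hQ0 : Q ≠ ⊥ := am_ne_bot_of_liesOver hq0 Q
  haveI := am_isMaximal hQ0
  haveI : Finite (𝓞 K ⧸ Q) := am_finite_quotient K hQ0
  letI : Field (𝓞 K ⧸ Q) := Ideal.Quotient.field Q
  have hN := am_one_lt_natCard_quotient hq0
  have hf : 0 < Q.inertiaDeg (𝓞 F) := Ideal.inertiaDeg_pos Q (𝓞 F)
  have hcard := am_natCard_quotient q hq0 Q
  rw [← am_forall_pow_eq_iff_dvd hN hf hcard n]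
  have hσ := am_frob_spec q hq0 Q
  have hpow := am_isArithFrobAt_pow hσ n
  rw [← hQ.over] at hpow
  constructor
  · intro h x
    obtain ⟨x, rfl⟩ := Ideal.Quotient.mk_surjective x
    have h1 := hpow x
    rw [h, one_smul] at h1
    rw [← map_pow, eq_comm, Ideal.Quotient.eq]
    exact h1
  · intro h
    have hin : am_frob F K q ^ n ∈ Q.inertia Gal(K/F) := by
      intro x
      have h1 := hpow x
      have h2 : x ^ (Nat.card (𝓞 F ⧸ q) ^ n) - x ∈ Q := by
        rw [← Ideal.Quotient.eq, map_pow]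
        exact h _
      have := add_mem h1 h2
      simpa using this
    rw [hu Q inferInstance inferInstance, Subgroup.mem_bot] at hin
    exact hin

/-- The Frobenius is trivial iff the inertia degree is one (unramified case). -/
theorem am_frob_eq_one_iff {q : Ideal (𝓞 F)} [hq : q.IsPrime] (hq0 : q ≠ ⊥)
    (hu : am_Unram F K q) (Q : Ideal (𝓞 K)) [Q.IsPrime] [hQ : Q.LiesOver q] :
    am_frob F K q = 1 ↔ Q.inertiaDeg (𝓞 F) = 1 := by
  have := am_frob_pow_eq_one_iff hq0 hu Q 1
  rw [pow_one, Nat.dvd_one] at this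
  exact this

/-- The order of the Frobenius is the inertia degree (unramified case). -/
theorem am_orderOf_frob {q : Ideal (𝓞 F)} [hq : q.IsPrime] (hq0 : q ≠ ⊥)
    (hu : am_Unram F K q) (Q : Ideal (𝓞 K)) [Q.IsPrime] [hQ : Q.LiesOver q] :
    orderOf (am_frob F K q) = Q.inertiaDeg (𝓞 F) := by
  apply Nat.dvd_antisymm
  · rw [orderOf_dvd_iff_pow_eq_one, am_frob_pow_eq_one_iff hq0 hu Q]
  · rw [← am_frob_pow_eq_one_iff hq0 hu Q]
    exact pow_orderOf_eq_one _

end Galois

end Fermat.Agent.S14
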