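import Fermat.Agent.S14.Artin.Equivariance
import Fermat.Agent.S14.Endgame

/-!
# S14 / Artin map block, part 4: the Stickelberger endgame applied to the Artin map

In the setting of the number field statement (`F = ℚ(ζ_p)`, `K/F` of degree `p`, unramified,
`K/ℚ` Galois with `Gal(F/ℚ)` acting on `Gal(K/F)` through the inverse cyclotomic character):
if the Artin map of `K/F` kills principal ideals, then every degree one prime of `F` not above `p`
has trivial Frobenius in `K`.
-/

open NumberField

namespace Fermat.Agent.S14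

open scoped Pointwise IsMulCommutative nonZeroDivisors

set_option linter.style.haveILetI false
set_option linter.unusedSectionVars false
set_option autoImplicit false

section Link

/-- A Galois extension of prime degree has commutative Galois group. -/
theorem am_isMulCommutative_of_finrank_prime {F K : Type*} [Field F] [Field K] [Algebra F K]
    [FiniteDimensional F K] [IsGalois F K] {p : ℕ} (hp : p.Prime)
    (h : Module.finrank F K = p) : IsMulCommutative Gal(K/F) := by
  haveI : Fact p.Prime := ⟨hp⟩
  have hcard : Nat.card Gal(K/F) = p := by rw [IsGalois.card_aut_eq_finrank, h]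
  haveI : IsCyclic Gal(K/F) := isCyclic_of_prime_card hcard
  exact IsCyclic.isMulCommutative

variable {p : ℕ} [hp : Fact p.Prime] {F K : Type*} [Field F] [NumberField F]
  [IsCyclotomicExtension {p} ℚ F] [Field K] [NumberField K] [Algebra F K] [IsGalois F K]
  [IsGalois ℚ K] [IsMulCommutative Gal(K/F)]

/-- **Endgame for the Artin map.**  In the setting of the number field statement, if the Artin
map of `K/F` kills principal ideals then the Frobenius of every degree one prime not above `p` is
trivial. -/
theorem am_frob_eq_one_of_absNorm_prime (hp2 : p ≠ 2) (hdeg : Module.finrank F K = p)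
    (hu : ∀ q : Ideal (𝓞 F), q.IsPrime → q ≠ ⊥ → am_Unram F K q)
    (ζ : K) (hζ : IsPrimitiveRoot ζ p)
    (hact : ∀ (σ : K ≃ₐ[ℚ] K) (τ : K ≃ₐ[F] K) (a : ℕ), σ ζ = ζ ^ a →
      σ * (τ.restrictScalars ℚ) ^ a * σ⁻¹ = τ.restrictScalars ℚ)
    (hprinc : ∀ α : 𝓞 F, α ≠ 0 → am_artinFun F K (Ideal.span {α}) = 1)
    (q : Ideal (𝓞 F)) [hq : q.IsPrime] {ℓ : ℕ} (hℓ : ℓ.Prime) (hℓp : ℓ ≠ p)
    (hqℓ : Ideal.absNorm q = ℓ) : am_frob F K q = 1 := by
  haveI : NeZero p := ⟨hp.out.ne_zero⟩
  have hq0 : q ≠ ⊥ := by
    intro h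
    rw [h, Ideal.absNorm_bot] at hqℓ
    exact hℓ.ne_zero hqℓ.symm
  have hz := IsCyclotomicExtension.zeta_spec p ℚ F
  have hζF : IsPrimitiveRoot hz.toInteger p := hz.toInteger_isPrimitiveRoot
  obtain ⟨τ, hτ1, hτ2, -⟩ := am_exists_equivariant_family hu ζ hζ hact hz.toInteger hζF
  have hG : ∀ g : Gal(K/F), g ^ p = 1 := by
    intro g
    have hcard : Nat.card Gal(K/F) = p := by rw [IsGalois.card_aut_eq_finrank, hdeg]
    rw [← hcard]
    exact pow_card_eq_one'
  have h := eg_artin_eq_one hp2 hG hζF τ hτ1 (am_artinFun F K)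
    (fun I J hI hJ => am_artinFun_mul hI hJ) am_artinFun_top hprinc q hℓ hℓp hqℓ
    (fun c hc0 hc2 => by
      have hcp : c < p := by omega
      have hq' : (Ideal.comap (τ c) q).IsPrime := Ideal.comap_isPrime _ _
      have hq'0 : Ideal.comap (τ c) q ≠ ⊥ := am_comap_ne_bot (τ c) hq0
      rw [am_artinFun_prime _ hq'0, am_artinFun_prime q hq0]
      exact hτ2 c hc0 hcp q hq hq0)
  rw [← am_artinFun_prime q hq0]
  exact h

end Link

end Fermat.Agent.S14
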