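import Fermat.Agent.S14.Artin.ArtinMap

/-!
# S14 / Artin map block, part 3: conjugation equivariance of Frobenius elements

`F ⊆ K` number fields, `K/F` abelian.  If a ring automorphism `s` of `K` maps `F` to itself,
acting there as `t`, then for a prime `q` of `𝓞 F` unramified in `K`
`Frob (t⁻¹ q) = s⁻¹ ∘ Frob (q) ∘ s`.  When conjugation by `s` acts on `Gal(K/F)` as the inverse of
the `c`-th power map this reads `Frob (t⁻¹ q) = Frob (q) ^ c`, which is the equivariance consumed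
by the Stickelberger endgame.  The last section packages this for `F = ℚ(ζ_p)`.
-/

open NumberField

namespace Fermat.Agent.S14

open scoped Pointwise IsMulCommutative nonZeroDivisors

set_option linter.style.haveILetI false
set_option linter.unusedSectionVars false
set_option autoImplicit false

section Conj

variable {F K : Type*} [Field F] [NumberField F] [Field K] [NumberField K] [Algebra F K]

/-- Conjugation `s ∘ φ ∘ s⁻¹` of an `F`-automorphism `φ` of `K` by a ring automorphism `s` of `K`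
which maps `F` to itself (acting there as `t`). -/
noncomputable def am_conj (s : K ≃+* K) (t : F ≃+* F)
    (hst : ∀ y : F, s (algebraMap F K y) = algebraMap F K (t y)) (φ : Gal(K/F)) : Gal(K/F) :=
  AlgEquiv.ofRingEquiv (f := (s.symm.trans φ.toRingEquiv).trans s) (by
    intro y
    have h1 : s.symm (algebraMap F K y) = algebraMap F K (t.symm y) := by
      rw [RingEquiv.symm_apply_eq, hst, RingEquiv.apply_symm_apply]
    have h2 : φ.toRingEquiv (algebraMap F K (t.symm y)) = algebraMap F K (t.symm y) :=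
      φ.commutes _
    simp only [RingEquiv.trans_apply, h1, h2, hst, RingEquiv.apply_symm_apply])

@[simp] theorem am_conj_apply (s : K ≃+* K) (t : F ≃+* F)
    (hst : ∀ y : F, s (algebraMap F K y) = algebraMap F K (t y)) (φ : Gal(K/F)) (x : K) :
    am_conj s t hst φ x = s (φ (s.symm x)) := rfl

theorem am_natCard_quot_comap (T : 𝓞 F ≃+* 𝓞 F) (q : Ideal (𝓞 F)) :
    Nat.card (𝓞 F ⧸ q.comap (T : 𝓞 F →+* 𝓞 F)) = Nat.card (𝓞 F ⧸ q) :=
  Nat.card_congr (Ideal.quotientEquiv _ q T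
    (Ideal.map_comap_of_surjective _ T.surjective q).symm).toEquiv

variable [IsGalois F K] [IsMulCommutative Gal(K/F)]

theorem am_frob_comap_apply (s : K ≃+* K) (t : F ≃+* F)
    (hst : ∀ y : F, s (algebraMap F K y) = algebraMap F K (t y))
    (q : Ideal (𝓞 F)) [hq : q.IsPrime] (hq0 : q ≠ ⊥) (hu : am_Unram F K q) (x : K) :
    s (am_frob F K (q.comap (RingOfIntegers.mapRingEquiv t : 𝓞 F →+* 𝓞 F)) x)
      = am_frob F K q (s x) := by
  set T := RingOfIntegers.mapRingEquiv t with hT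
  set S := RingOfIntegers.mapRingEquiv s with hS
  set q' := q.comap (T : 𝓞 F →+* 𝓞 F) with hq'
  have hq'prime : q'.IsPrime := Ideal.comap_isPrime (T : 𝓞 F →+* 𝓞 F) q
  have hq'0 : q' ≠ ⊥ := by
    intro h
    apply hq0
    have h1 : q = q'.map (T : 𝓞 F →+* 𝓞 F) :=
      (Ideal.map_comap_of_surjective (T : 𝓞 F →+* 𝓞 F) T.surjective q).symm
    rw [h1, h, Ideal.map_bot]
  obtain ⟨Q'', hQ''prime, hQ''over, hQ''0⟩ := am_exists_prime_over K q' hq'0
  set Q := Q''.comap (S.symm : 𝓞 K →+* 𝓞 K) with hQ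
  have hQprime : Q.IsPrime := Ideal.comap_isPrime _ _
  have hst' : ∀ y : F, s.symm (algebraMap F K y) = algebraMap F K (t.symm y) := by
    intro y
    rw [RingEquiv.symm_apply_eq, hst, RingEquiv.apply_symm_apply]
  have hQover : Q.LiesOver q := by
    constructor
    ext y
    rw [Ideal.under_def, Ideal.mem_comap, hQ, Ideal.mem_comap]
    have h1 : (S.symm : 𝓞 K →+* 𝓞 K) (algebraMap (𝓞 F) (𝓞 K) y)
        = algebraMap (𝓞 F) (𝓞 K) (T.symm y) := by
      apply RingOfIntegers.ext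
      exact hst' y
    rw [h1]
    have h2 : algebraMap (𝓞 F) (𝓞 K) (T.symm y) ∈ Q'' ↔ T.symm y ∈ q' := by
      rw [hQ''over.over, Ideal.under_def, Ideal.mem_comap]
    rw [h2, hq', Ideal.mem_comap]
    simp
  set φ' := am_frob F K q' with hφ'
  set ρ := am_conj s t hst φ' with hρ
  have hcard : Nat.card (𝓞 F ⧸ Q.under (𝓞 F)) = Nat.card (𝓞 F ⧸ q') := by
    rw [← hQover.over, hq', am_natCard_quot_comap]
  have hfrob : IsArithFrobAt (𝓞 F) ρ Q := by
    intro z
    change ρ • z - z ^ _ ∈ Q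
    rw [hcard, hQ, Ideal.mem_comap, map_sub, map_pow]
    have h1 : (S.symm : 𝓞 K →+* 𝓞 K) (ρ • z) = φ' • (S.symm z) := by
      apply RingOfIntegers.ext
      change s.symm (s (φ' (s.symm z))) = φ' (s.symm z)
      rw [RingEquiv.symm_apply_apply]
    rw [h1]
    exact am_frob_spec' q' hq'0 Q'' (S.symm z)
  have huniq : ρ = am_frob F K q := am_frob_unique hq0 hu Q hfrob
  rw [← huniq, hρ, am_conj_apply, RingEquiv.symm_apply_apply]

variable {F0 : Type*} [Field F0] [Algebra F0 F] [Algebra F0 K] [IsScalarTower F0 F K]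

/-- Conjugation equivariance of the Frobenius element, as an identity in `Gal(K/F0)`. -/
theorem am_frob_comap_restrictScalars (s : K ≃ₐ[F0] K) (t : F ≃ₐ[F0] F)
    (hst : ∀ y : F, s (algebraMap F K y) = algebraMap F K (t y))
    (q : Ideal (𝓞 F)) [hq : q.IsPrime] (hq0 : q ≠ ⊥) (hu : am_Unram F K q) :
    (am_frob F K (q.comap
      (RingOfIntegers.mapRingEquiv (t : F ≃+* F) : 𝓞 F →+* 𝓞 F))).restrictScalars F0
      = s⁻¹ * (am_frob F K q).restrictScalars F0 * s := by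
  ext x
  have h := am_frob_comap_apply (s : K ≃+* K) (t : F ≃+* F) hst q hq0 hu x
  rw [AlgEquiv.mul_apply, AlgEquiv.mul_apply, AlgEquiv.restrictScalars_apply,
    AlgEquiv.restrictScalars_apply]
  have h2 : s⁻¹ = s.symm := rfl
  rw [h2, AlgEquiv.eq_symm_apply]
  exact h

/-- If conjugation by `s` raises to the `c`-th power on `Gal(K/F)` (in the sense
`s * τ ^ c * s⁻¹ = τ`), then `Frob (t⁻¹ q) = Frob (q) ^ c`. -/
theorem am_frob_comap_eq_pow (s : K ≃ₐ[F0] K) (t : F ≃ₐ[F0] F)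
    (hst : ∀ y : F, s (algebraMap F K y) = algebraMap F K (t y)) (c : ℕ)
    (hact : ∀ τ : Gal(K/F), s * (τ.restrictScalars F0) ^ c * s⁻¹ = τ.restrictScalars F0)
    (q : Ideal (𝓞 F)) [hq : q.IsPrime] (hq0 : q ≠ ⊥) (hu : am_Unram F K q) :
    am_frob F K (q.comap (RingOfIntegers.mapRingEquiv (t : F ≃+* F) : 𝓞 F →+* 𝓞 F))
      = am_frob F K q ^ c := by
  apply AlgEquiv.restrictScalars_injective F0
  rw [am_frob_comap_restrictScalars s t hst q hq0 hu]
  have h1 : (am_frob F K q ^ c).restrictScalars F0 = ((am_frob F K q).restrictScalars F0) ^ c :=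
    map_pow (AlgEquiv.restrictScalarsHom F0 : Gal(K/F) →* (K ≃ₐ[F0] K)) _ _
  rw [h1]
  have h2 := hact (am_frob F K q)
  calc s⁻¹ * (am_frob F K q).restrictScalars F0 * s
      = s⁻¹ * (s * ((am_frob F K q).restrictScalars F0) ^ c * s⁻¹) * s := by rw [h2]
    _ = ((am_frob F K q).restrictScalars F0) ^ c := by group

theorem am_comap_ne_bot (T : 𝓞 F ≃+* 𝓞 F) {I : Ideal (𝓞 F)} (hI : I ≠ ⊥) :
    I.comap (T : 𝓞 F →+* 𝓞 F) ≠ ⊥ := by
  intro h
  apply hI
  have h1 : I = (I.comap (T : 𝓞 F →+* 𝓞 F)).map (T : 𝓞 F →+* 𝓞 F) :=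
    (Ideal.map_comap_of_surjective (T : 𝓞 F →+* 𝓞 F) T.surjective I).symm
  rw [h1, h, Ideal.map_bot]

theorem am_comap_mul (T : 𝓞 F ≃+* 𝓞 F) (I J : Ideal (𝓞 F)) :
    (I * J).comap (T : 𝓞 F →+* 𝓞 F)
      = I.comap (T : 𝓞 F →+* 𝓞 F) * J.comap (T : 𝓞 F →+* 𝓞 F) := by
  have h : ∀ A : Ideal (𝓞 F), A.comap (T : 𝓞 F →+* 𝓞 F) = A.map (T.symm : 𝓞 F →+* 𝓞 F) :=
    fun A => (Ideal.map_symm T).symm
  rw [h, h, h, Ideal.map_mul]

/-- Artin-map version of `am_frob_comap_eq_pow`. -/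
theorem am_artinFun_comap_eq_pow (s : K ≃ₐ[F0] K) (t : F ≃ₐ[F0] F)
    (hst : ∀ y : F, s (algebraMap F K y) = algebraMap F K (t y)) (c : ℕ)
    (hact : ∀ τ : Gal(K/F), s * (τ.restrictScalars F0) ^ c * s⁻¹ = τ.restrictScalars F0)
    (hu : ∀ q : Ideal (𝓞 F), q.IsPrime → q ≠ ⊥ → am_Unram F K q) (I : Ideal (𝓞 F)) :
    am_artinFun F K (I.comap (RingOfIntegers.mapRingEquiv (t : F ≃+* F) : 𝓞 F →+* 𝓞 F))
      = am_artinFun F K I ^ c := by
  set T := RingOfIntegers.mapRingEquiv (t : F ≃+* F) with hT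
  induction I using UniqueFactorizationMonoid.induction_on_prime with
  | h₁ =>
    have h0 : (⊥ : Ideal (𝓞 F)).comap (T : 𝓞 F →+* 𝓞 F) = ⊥ :=
      Ideal.comap_bot_of_injective (T : 𝓞 F →+* 𝓞 F) T.injective
    rw [Ideal.zero_eq_bot, h0, am_artinFun_bot, one_pow]
  | h₂ x hx =>
    rw [Ideal.isUnit_iff] at hx
    rw [hx, Ideal.comap_top, am_artinFun_top, one_pow]
  | h₃ a P ha hP ih =>
    have hP0 : P ≠ ⊥ := hP.ne_zero
    have hPprime : P.IsPrime := Ideal.isPrime_of_prime hP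
    have hP' : (P.comap (T : 𝓞 F →+* 𝓞 F)).IsPrime := Ideal.comap_isPrime _ _
    rw [am_comap_mul, am_artinFun_mul (am_comap_ne_bot T hP0) (am_comap_ne_bot T ha),
      am_artinFun_mul hP0 ha, ih, mul_pow, am_artinFun_prime _ (am_comap_ne_bot T hP0),
      am_artinFun_prime P hP0, am_frob_comap_eq_pow s t hst c hact P hP0 (hu P hPprime hP0)]

end Conj

section General

variable {F K : Type*} [Field F] [NumberField F] [Field K] [NumberField K] [Algebra F K]
  [IsGalois F K]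

/-- Unramifiedness in the form used in the number field statement. -/
theorem am_unram_of_forall_eq_one
    (h : ∀ (P : Ideal (𝓞 K)), P.IsPrime → P ≠ ⊥ →
      ∀ τ : K ≃ₐ[F] K, (∀ x : 𝓞 K, τ • x - x ∈ P) → τ = 1)
    (q : Ideal (𝓞 F)) (hq0 : q ≠ ⊥) : am_Unram F K q := by
  intro Q hQ hQq
  rw [eq_bot_iff]
  intro τ hτ
  rw [AddSubgroup.mem_inertia] at hτ
  exact Subgroup.mem_bot.mpr (h Q hQ (am_ne_bot_of_liesOver hq0 Q) τ hτ)

end General

section Roots

/-- A ring homomorphism raising one primitive `n`-th root of unity to the `c`-th power raises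
every `n`-th root of unity to the `c`-th power. -/
theorem am_map_root_eq_pow {A : Type*} [CommRing A] [IsDomain A] {n : ℕ} [NeZero n]
    (g : A →+* A) {ζ : A} (hζ : IsPrimitiveRoot ζ n) {c : ℕ} (hg : g ζ = ζ ^ c) {ξ : A}
    (hξ : ξ ^ n = 1) : g ξ = ξ ^ c := by
  obtain ⟨i, _, rfl⟩ := hζ.eq_pow_of_pow_eq_one hξ
  rw [map_pow, hg, ← pow_mul, ← pow_mul, mul_comm]

end Roots

section NF

variable {p : ℕ} [hp : Fact p.Prime] {F K : Type*} [Field F] [NumberField F]
  [IsCyclotomicExtension {p} ℚ F] [Field K] [NumberField K] [Algebra F K] [IsGalois F K]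
  [IsGalois ℚ K] [IsMulCommutative Gal(K/F)]

/-- For `0 < c < p` there is an automorphism of `F = ℚ(ζ_p)` raising `p`-th roots of unity to the
`c`-th power. -/
theorem am_exists_aut_pow {c : ℕ} (hc0 : 0 < c) (hcp : c < p) :
    ∃ t : F ≃ₐ[ℚ] F, ∀ ξ : F, ξ ^ p = 1 → t ξ = ξ ^ c := by
  haveI : NeZero p := ⟨hp.out.ne_zero⟩
  have hirr : Irreducible (Polynomial.cyclotomic p ℚ) :=
    Polynomial.cyclotomic.irreducible_rat hp.out.pos
  have hz := IsCyclotomicExtension.zeta_spec p ℚ F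
  have hcop : Nat.Coprime c p := by
    rw [Nat.coprime_comm, Nat.Prime.coprime_iff_not_dvd hp.out]
    intro hd
    have := Nat.le_of_dvd hc0 hd
    omega
  have hμ : IsPrimitiveRoot (IsCyclotomicExtension.zeta p ℚ F ^ c) p := hz.pow_of_coprime c hcop
  refine ⟨IsCyclotomicExtension.fromZetaAut hμ hirr, fun ξ hξ => ?_⟩
  exact am_map_root_eq_pow ((IsCyclotomicExtension.fromZetaAut hμ hirr : F ≃ₐ[ℚ] F) : F →+* F) hz
    (IsCyclotomicExtension.fromZetaAut_spec hμ hirr) hξ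

/-- **Equivariance package for the endgame.**  In the setting of the number field statement
(`F = ℚ(ζ_p)`, `K/F` abelian and unramified, `K/ℚ` Galois, `Gal(F/ℚ)` acting on `Gal(K/F)` through
the inverse of the cyclotomic character), there is a family `τ c` of ring automorphisms of `𝓞 F`
with `τ c ζ = ζ ^ c` and `Frob (τ c ⁻¹' q) = Frob (q) ^ c`. -/
theorem am_exists_equivariant_family
    (hu : ∀ q : Ideal (𝓞 F), q.IsPrime → q ≠ ⊥ → am_Unram F K q)
    (ζ : K) (hζ : IsPrimitiveRoot ζ p)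
    (hact : ∀ (σ : K ≃ₐ[ℚ] K) (τ : K ≃ₐ[F] K) (a : ℕ), σ ζ = ζ ^ a →
      σ * (τ.restrictScalars ℚ) ^ a * σ⁻¹ = τ.restrictScalars ℚ)
    (ζF : 𝓞 F) (hζF : IsPrimitiveRoot ζF p) :
    ∃ τ : ℕ → (𝓞 F ≃+* 𝓞 F), (∀ c, 0 < c → c < p → τ c ζF = ζF ^ c) ∧
      (∀ c, 0 < c → c < p → ∀ q : Ideal (𝓞 F), q.IsPrime → q ≠ ⊥ →
        am_frob F K (Ideal.comap (τ c) q) = am_frob F K q ^ c) ∧
      (∀ c, 0 < c → c < p → ∀ I : Ideal (𝓞 F),
        am_artinFun F K (Ideal.comap (τ c) I) = am_artinFun F K I ^ c) := by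
  haveI : NeZero p := ⟨hp.out.ne_zero⟩
  have key : ∀ c : ℕ, ∃ T : 𝓞 F ≃+* 𝓞 F, 0 < c → c < p →
      (T ζF = ζF ^ c ∧
        (∀ q : Ideal (𝓞 F), q.IsPrime → q ≠ ⊥ →
          am_frob F K (Ideal.comap T q) = am_frob F K q ^ c) ∧
        (∀ I : Ideal (𝓞 F), am_artinFun F K (Ideal.comap T I) = am_artinFun F K I ^ c)) := by
    intro c
    by_cases hc : 0 < c ∧ c < p
    · obtain ⟨t, ht⟩ := am_exists_aut_pow (F := F) hc.1 hc.2
      set σ : K ≃ₐ[ℚ] K := t.liftNormal K with hσ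
      have hst : ∀ y : F, σ (algebraMap F K y) = algebraMap F K (t y) :=
        fun y => AlgEquiv.liftNormal_commutes t K y
      -- the image of `ζF` in `K` is a primitive root
      have hζ0 : IsPrimitiveRoot (ζF : F) p :=
        hζF.map_of_injective (f := algebraMap (𝓞 F) F) RingOfIntegers.coe_injective
      have hζ1 : IsPrimitiveRoot (algebraMap F K (ζF : F)) p :=
        hζ0.map_of_injective (algebraMap F K).injective
      have hσ1 : σ (algebraMap F K (ζF : F)) = (algebraMap F K (ζF : F)) ^ c := by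
        rw [hst, ht _ hζ0.pow_eq_one, map_pow]
      have hσζ : σ ζ = ζ ^ c :=
        am_map_root_eq_pow (σ : K →+* K) hζ1 hσ1 hζ.pow_eq_one
      have hact' : ∀ τ : Gal(K/F), σ * (τ.restrictScalars ℚ) ^ c * σ⁻¹ = τ.restrictScalars ℚ :=
        fun τ => hact σ τ c hσζ
      refine ⟨RingOfIntegers.mapRingEquiv (t : F ≃+* F), fun _ _ => ⟨?_, ?_, ?_⟩⟩
      · apply RingOfIntegers.ext
        change t (ζF : F) = ((ζF ^ c : 𝓞 F) : F)
        rw [ht _ hζ0.pow_eq_one]
        rfl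
      · intro q hq hq0
        exact am_frob_comap_eq_pow σ t hst c hact' q hq0 (hu q hq hq0)
      · intro I
        exact am_artinFun_comap_eq_pow σ t hst c hact' hu I
    · exact ⟨RingEquiv.refl _, fun h1 h2 => absurd ⟨h1, h2⟩ hc⟩
  choose τ hτ using key
  exact ⟨τ, fun c h1 h2 => (hτ c h1 h2).1, fun c h1 h2 => (hτ c h1 h2).2.1,
    fun c h1 h2 => (hτ c h1 h2).2.2⟩

end NF

end Fermat.Agent.S14
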